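import Fermat.Agent.EC.Multiplicative.Exists
import Fermat.Agent.EC.Reduction.Galois
import Fermat.Agent.Arith.Places

/-!
# Inertia and the component homomorphism

Inertia fixes the exact node and preserves components.
-/

set_option autoImplicit false

open WeierstrassCurve WeierstrassCurve.Affine
open scoped WeierstrassCurve.Affine Pointwise

namespace Fermat.Agent.EC.Multiplicative

open Fermat.Agent.EC.Reduction

universe r s v

variable {R : Type r} {S : Type s} {L : Type v} [CommRing R] [Field S] [Field L]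
  [Algebra R S] [Algebra R L] [Algebra S L] [IsScalarTower R S L]
  {W' : Affine R} {A : ValuationSubring L} {V : Affine (IsLocalRing.ResidueField A)}
  {σ : L ≃ₐ[S] L}

omit [Algebra R S] [Algebra R L] [IsScalarTower R S L] in
/-- An automorphism preserving `A` preserves the valuation of algebraic elements. -/
lemma valuation_map_eq [Algebra.IsAlgebraic S L] (hσ : σ • A = A) (x : L) :
    A.valuation (σ x) = A.valuation x :=
  Arith.valuation_map_eq_of_mem_iff σ (fun y => map_mem_iff_of_smul_eq hσ y) x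

namespace Node

variable (N : Node A (W'⁄L) V)

lemma map_coeff (σ : L ≃ₐ[S] L) (a : R) : σ (algebraMap R L a) = algebraMap R L a := by
  rw [IsScalarTower.algebraMap_apply R S L, AlgEquiv.commutes]

/-- An automorphism whose residual action fixes the node fixes the exact node. -/
lemma map_rt_eq (hσ : σ • A = A) (hres : res A (σ N.r) = res A N.r) :
    σ N.r = N.r ∧ σ N.t = N.t := by
  obtain ⟨-, -, -, em, -⟩ := N.resData
  have es := N.resData.es
  have k₁ : σ (W'⁄L).a₁ = (W'⁄L).a₁ := by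
    simp [Affine.baseChange, WeierstrassCurve.baseChange, map_coeff]
  have k₂ : σ (W'⁄L).a₂ = (W'⁄L).a₂ := by
    simp [Affine.baseChange, WeierstrassCurve.baseChange, map_coeff]
  have k₃ : σ (W'⁄L).a₃ = (W'⁄L).a₃ := by
    simp [Affine.baseChange, WeierstrassCurve.baseChange, map_coeff]
  have k₄ : σ (W'⁄L).a₄ = (W'⁄L).a₄ := by
    simp [Affine.baseChange, WeierstrassCurve.baseChange, map_coeff]
  have hrA : σ N.r ∈ A := (map_mem_iff_of_smul_eq hσ _).mpr N.hr
  have ma := (A.valuation_le_one_iff _).mp N.par.ha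
  have mb := (A.valuation_le_one_iff _).mp N.par.hb
  have e₃ := congr_arg σ N.eq₃
  have e₄ := congr_arg σ N.eq₄
  simp only [map_add, map_sub, map_mul, map_pow, map_ofNat, map_zero, k₁, k₂, k₃, k₄] at e₃ e₄
  have n₂ : (2 : L) ∈ A := natCast_mem' 2
  have n₆ : (6 : L) ∈ A := natCast_mem' 6
  set K : L := (N.a - N.b) ^ 2 + 6 * (σ N.r - N.r) with hK
  have hKK : (σ N.r - N.r) * K = 0 := by
    rw [hK, show (N.a - N.b) ^ 2 = (N.a + N.b) ^ 2 - 4 * (N.a * N.b) by ring, N.sum_ab, N.mul_ab]
    linear_combination (W'⁄L).a₁ * e₃ - (W'⁄L).a₁ * N.eq₃ + 2 * e₄ - 2 * N.eq₄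
  have hd : σ N.r - N.r ∈ A := sub_mem hrA N.hr
  have hK0 : K ≠ 0 := by
    intro e
    have := congr_arg (res A) e
    rw [hK, res_add (pow_mem (sub_mem ma mb) 2) (mul_mem n₆ hd), res_mul n₆ hd,
      res_sub hrA N.hr, hres, sub_self, mul_zero, add_zero, res_zero,
      res_pow (sub_mem ma mb), res_sub ma mb] at this
    exact pow_ne_zero 2 N.resData.sep this
  have hr : σ N.r = N.r := sub_eq_zero.mp ((mul_eq_zero.mp hKK).resolve_right hK0)
  have htA : σ N.t ∈ A := (map_mem_iff_of_smul_eq hσ _).mpr N.ht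
  have ht : σ N.t = N.t := by
    rw [hr] at e₃ e₄
    have h1 : 2 * (σ N.t - N.t) = 0 := by linear_combination e₃ - N.eq₃
    have h2 : (W'⁄L).a₁ * (σ N.t - N.t) = 0 := by linear_combination N.eq₄ - e₄
    refine sub_eq_zero.mp (by_contra fun hne => ?_)
    have h1' := (mul_eq_zero.mp h1).resolve_right hne
    have h2' := (mul_eq_zero.mp h2).resolve_right hne
    have hsep := N.resData.sep
    rw [← res_sub ma mb] at hsep
    apply pow_ne_zero 2 hsep
    rw [← res_pow (sub_mem ma mb), show (N.a - N.b) ^ 2 = (N.a + N.b) ^ 2 - 2 * (2 * (N.a * N.b))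
      by ring, N.sum_ab, h2', h1']
    simp
  exact ⟨hr, ht⟩

lemma map_a₁' (_N : Node A (W'⁄L) V) (σ : L ≃ₐ[S] L) : σ (W'⁄L).a₁ = (W'⁄L).a₁ := by
  simp [Affine.baseChange, WeierstrassCurve.baseChange, map_coeff]

/-- An automorphism fixing the node permutes the two tangents. -/
lemma map_ab (_hσ : σ • A = A) (hr : σ N.r = N.r) :
    (σ N.a = N.a ∧ σ N.b = N.b) ∨ (σ N.a = N.b ∧ σ N.b = N.a) := by
  have k₁ := N.map_a₁' σ
  have k₂ : σ (W'⁄L).a₂ = (W'⁄L).a₂ := by
    simp [Affine.baseChange, WeierstrassCurve.baseChange, map_coeff]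
  have hquad : (σ N.a - N.a) * (σ N.a - N.b) = 0 := by
    have hroot : σ N.a ^ 2 + (W'⁄L).a₁ * σ N.a - ((W'⁄L).a₂ + 3 * N.r) = 0 := by
      have h0 : N.a ^ 2 + (W'⁄L).a₁ * N.a - ((W'⁄L).a₂ + 3 * N.r) = 0 := by
        linear_combination N.a * N.sum_ab - N.mul_ab
      have := congr_arg σ h0
      simpa only [map_add, map_sub, map_mul, map_pow, map_ofNat, map_zero, k₁, k₂, hr] using this
    linear_combination hroot - σ N.a * N.sum_ab + N.mul_ab
  have hsum : σ N.a + σ N.b = N.a + N.b := by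
    rw [← map_add, N.sum_ab, map_neg, k₁]
  rcases mul_eq_zero.mp hquad with e | e <;> rw [sub_eq_zero] at e
  · exact Or.inl ⟨e, by rw [e] at hsum; exact add_left_cancel hsum⟩
  · exact Or.inr ⟨e, by rw [e, add_comm N.a] at hsum; exact add_left_cancel hsum⟩

lemma map_node_eq (hσ : σ • A = A) (hin : ∀ x ∈ A, res A (σ x) = res A x) :
    σ N.r = N.r ∧ σ N.t = N.t ∧ σ N.a = N.a := by
  obtain ⟨hr, ht⟩ := N.map_rt_eq hσ (hin _ N.hr)
  refine ⟨hr, ht, ((N.map_ab hσ hr).resolve_right fun h => N.resData.sep ?_).1⟩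
  rw [← hin _ ((A.valuation_le_one_iff _).mp N.par.ha), h.1, sub_self]

variable [DecidableEq L] [Algebra.IsAlgebraic S L]

/-- Inertia preserves components. -/
lemma comp_smul (hσ : σ • A = A) (hin : ∀ x ∈ A, res A (σ x) = res A x) (P : (W'⁄L).Point) :
    N.comp (σ • P) = N.comp P := by
  obtain ⟨hr, ht, ha⟩ := N.map_node_eq hσ hin
  match P with
  | .zero => rfl
  | .some x y h =>
    obtain ⟨h', e⟩ := smul_some (σ := σ) h
    rw [e]
    have ex : σ x - N.r = σ (x - N.r) := by rw [map_sub, hr]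
    have ey : σ y - N.t = σ (y - N.t) := by rw [map_sub, ht]
    have hiff : N.AtNode (Point.some (σ x) (σ y) h') ↔ N.AtNode (Point.some x y h) := by
      rw [atNode_some, atNode_some, ex, ey, valuation_map_eq hσ, valuation_map_eq hσ]
    by_cases hP : N.AtNode (Point.some x y h)
    · rw [N.comp_of_atNode hP, N.comp_of_atNode (hiff.mpr hP), ex, ey]
      congr 1
      have e' : σ (y - N.t) - N.a * σ (x - N.r) = σ (y - N.t - N.a * (x - N.r)) := by
        rw [map_sub σ (y - N.t), map_mul, ha]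
      rw [compVal, compVal, e', valuation_map_eq hσ, valuation_map_eq hσ]
    · rw [N.comp_of_not_atNode hP, N.comp_of_not_atNode (mt hiff.mp hP)]

variable [DecidableEq (IsLocalRing.ResidueField A)]

/-- `σ P - P` has nonsingular reduction for `σ` in inertia. -/
lemma inE0_smul_sub (N : Node A (W'⁄L) V) (hσ : σ • A = A) (hin : ∀ x ∈ A, res A (σ x) = res A x)
    (P : (W'⁄L).Point) : InE0 A V (σ • P - P) := by
  rw [← N.comp_eq_zero_iff, ← N.compHom_apply, map_sub, N.compHom_apply, N.compHom_apply,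
    N.comp_smul hσ hin, sub_self]

end Node

end Fermat.Agent.EC.Multiplicative
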