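import Mathlib.RingTheory.Valuation.Basic
import Mathlib.Tactic.LinearCombination
import Mathlib.Tactic.Ring

/-!
# Valuations on a nodal cubic

On `(Y - a X) (Y - b X) = X ^ 3 + c`, with `c` small and `a - b` a unit: the component value of a
point near the node, and the relations between those of three collinear points.
-/

set_option autoImplicit false

namespace Fermat.Agent.EC.Multiplicative

variable {L : Type*} [Field L] {Γ : Type*} [LinearOrderedCommGroupWithZero Γ]
  (v : Valuation L Γ)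

/-- The hypotheses on the parameters of a nodal model. -/
structure NodeParams (a b c : L) : Prop where
  ha : v a ≤ 1
  hb : v b ≤ 1
  hab : v (a - b) = 1
  hc0 : c ≠ 0
  hc : v c < 1

/-- `(X, Y)` is a point of the nodal model lying near the node. -/
structure NearNode (a b c X Y : L) : Prop where
  eqn : (Y - a * X) * (Y - b * X) = X ^ 3 + c
  hX : v X < 1
  hY : v Y < 1

open Classical in
/-- Twice the component of a point near the node, written multiplicatively. -/
noncomputable def compVal (a c X Y : L) : Γ :=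
  if v c < v X ^ 2 then (if v (Y - a * X) < v X then v X ^ 2 else (v X ^ 2)⁻¹) else v c

/-- Membership in the subgroup generated by `v c ^ 2`. -/
def InH (c : L) (g : Γ) : Prop := ∃ k : ℤ, g = (v c ^ 2) ^ k

variable {v}

namespace InH

variable {c : L}

lemma one : InH v c (1 : Γ) := ⟨0, (zpow_zero _).symm⟩

lemma sq : InH v c (v c ^ 2) := ⟨1, (zpow_one _).symm⟩

lemma mul {g h : Γ} (hc : c ≠ 0) (hg : InH v c g) (hh : InH v c h) : InH v c (g * h) := by
  obtain ⟨k, rfl⟩ := hg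
  obtain ⟨l, rfl⟩ := hh
  exact ⟨k + l, (zpow_add₀ (pow_ne_zero _ ((v.ne_zero_iff).mpr hc)) k l).symm⟩

lemma inv {g : Γ} (hg : InH v c g) : InH v c g⁻¹ := by
  obtain ⟨k, rfl⟩ := hg
  exact ⟨-k, (zpow_neg _ _).symm⟩

end InH

namespace NodeParams

variable {a b c : L}

lemma symm (h : NodeParams v a b c) : NodeParams v b a c :=
  ⟨h.hb, h.ha, by rw [v.map_sub_swap]; exact h.hab, h.hc0, h.hc⟩

lemma vc_ne_zero (h : NodeParams v a b c) : v c ≠ 0 := (v.ne_zero_iff).mpr h.hc0

end NodeParams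

namespace NearNode

variable {a b c X Y : L}

lemma X_ne_zero (hlt : v c < v X ^ 2) : X ≠ 0 := by
  rintro rfl
  simp at hlt

lemma not_both (hp : NodeParams v a b c) (h₁ : v (Y - a * X) < v X) :
    ¬ v (Y - b * X) < v X := by
  intro h₂
  have := v.map_sub_lt (g := v X) h₂ h₁
  rw [show Y - b * X - (Y - a * X) = (a - b) * X by ring, map_mul, hp.hab, one_mul] at this
  exact lt_irrefl _ this

lemma either (h : NearNode v a b c X Y) (hlt : v c < v X ^ 2) :
    v (Y - a * X) < v X ∨ v (Y - b * X) < v X := by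
  by_contra hcon
  rw [not_or, not_lt, not_lt] at hcon
  have hX0 : 0 < v X := zero_lt_iff.mpr ((v.ne_zero_iff).mpr (X_ne_zero hlt))
  have h3 : v (X ^ 3) < v X ^ 2 := by
    rw [map_pow, pow_succ]
    exact mul_lt_of_lt_one_right (pow_pos hX0 2) h.hX
  have := v.map_add_lt (g := v X ^ 2) h3 hlt
  rw [← h.eqn, map_mul, sq] at this
  exact absurd (mul_le_mul' hcon.1 hcon.2) (not_le.mpr this)

lemma compVal_ne_zero (hp : NodeParams v a b c) : compVal v a c X Y ≠ 0 := by
  unfold compVal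
  split_ifs with h1
  · exact pow_ne_zero _ ((v.ne_zero_iff).mpr (X_ne_zero h1))
  · exact inv_ne_zero (pow_ne_zero _ ((v.ne_zero_iff).mpr (X_ne_zero h1)))
  · exact hp.vc_ne_zero

lemma compVal_mul_swap (h : NearNode v a b c X Y) (hp : NodeParams v a b c) :
    InH v c (compVal v a c X Y * compVal v b c X Y) := by
  unfold compVal
  split_ifs with h1 h2 h3 h3
  · exact absurd h3 (not_both hp h2)
  · rw [mul_inv_cancel₀ (pow_ne_zero _ ((v.ne_zero_iff).mpr (X_ne_zero h1)))]
    exact InH.one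
  · rw [inv_mul_cancel₀ (pow_ne_zero _ ((v.ne_zero_iff).mpr (X_ne_zero h1)))]
    exact InH.one
  · exact absurd (h.either h1) (by simp [h2, h3])
  · rw [← sq]; exact InH.sq

end NearNode

/-- A point near the node never has trivial component. -/
lemma compVal_not_inH {a b c X Y : L} (hp : NodeParams v a b c) (h : NearNode v a b c X Y) :
    ¬ InH v c (compVal v a c X Y) := by
  rintro ⟨k, hk⟩
  have hc0 : 0 < v c := zero_lt_iff.mpr hp.vc_ne_zero
  have hsq : v c ^ 2 < v c := by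
    rw [sq]; exact mul_lt_of_lt_one_left hc0 hp.hc
  have key : ∀ g : Γ, v c ^ 2 < g → g < 1 → ∀ n : ℤ, g ≠ (v c ^ 2) ^ n := by
    intro g hg hg1 n hn
    have hd1 : v c ^ 2 < 1 := hsq.trans hp.hc
    rcases le_or_gt n 0 with hn0 | hn0
    · have := zpow_le_zpow_right_of_le_one₀ (pow_pos hc0 2) hd1.le hn0
      rw [zpow_zero, ← hn] at this
      exact absurd this (not_le.mpr hg1)
    · have := zpow_le_zpow_right_of_le_one₀ (pow_pos hc0 2) hd1.le (show (1 : ℤ) ≤ n by omega)
      rw [zpow_one, ← hn] at this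
      exact absurd this (not_le.mpr hg)
  unfold compVal at hk
  split_ifs at hk with h1 h2
  · exact key _ (hsq.trans h1) (pow_lt_one₀ zero_le h.hX two_ne_zero) k hk
  · refine key _ (hsq.trans h1) (pow_lt_one₀ zero_le h.hX two_ne_zero) (-k) ?_
    rw [zpow_neg, ← hk, inv_inv]
  · exact key _ hsq hp.hc k hk

section Collinear

variable {a b c l m X₁ X₂ X₃ : L}

/-- Vieta relations between three collinear points of the nodal model. -/
structure Triple (a b c l m X₁ X₂ X₃ : L) : Prop where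
  e1 : X₁ + X₂ + X₃ = (l - a) * (l - b)
  e2 : X₁ * X₂ + X₁ * X₃ + X₂ * X₃ = -(m * ((l - a) + (l - b)))
  e3 : X₁ * X₂ * X₃ = m ^ 2 - c

lemma Triple.symm (T : Triple a b c l m X₁ X₂ X₃) : Triple b a c l m X₁ X₂ X₃ :=
  ⟨by rw [T.e1]; ring, by rw [T.e2]; ring, T.e3⟩

lemma Triple.swap₁₂ (T : Triple a b c l m X₁ X₂ X₃) : Triple a b c l m X₂ X₁ X₃ :=
  ⟨by rw [← T.e1]; ring, by rw [← T.e2]; ring, by rw [← T.e3]; ring⟩

lemma Triple.swap₂₃ (T : Triple a b c l m X₁ X₂ X₃) : Triple a b c l m X₁ X₃ X₂ :=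
  ⟨by rw [← T.e1]; ring, by rw [← T.e2]; ring, by rw [← T.e3]; ring⟩

lemma prod_sorted (hp : NodeParams v a b c) (T : Triple a b c l m X₁ X₂ X₃)
    (hg : v (l - a) < 1) (hX₁ : v X₁ < 1)
    (h₁₂ : v X₂ ≤ v X₁) (h₂₃ : v X₃ ≤ v X₂) :
    InH v c (compVal v a c X₁ (l * X₁ + m) * compVal v a c X₂ (l * X₂ + m)
      * compVal v a c X₃ (l * X₃ + m)) := by
  have hd : v ((l - a) + (l - b)) = 1 := by
    have h1 : v (l - b) = 1 := by
      rw [show l - b = (l - a) + (a - b) by ring,
        v.map_add_eq_of_lt_right (by rw [hp.hab]; exact hg), hp.hab]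
    rw [v.map_add_eq_of_lt_right (by rw [h1]; exact hg), h1]
  have he2 : v (X₁ * X₂ + X₁ * X₃ + X₂ * X₃) = v m := by
    rw [T.e2, v.map_neg, map_mul, hd, mul_one]
  have branch : ∀ X : L, v c < v X ^ 2 →
      (v ((l * X + m) - a * X) < v X ↔ v m < v X) := by
    intro X hX
    have hX0 : 0 < v X := zero_lt_iff.mpr ((v.ne_zero_iff).mpr (NearNode.X_ne_zero hX))
    have hgX : v ((l - a) * X) < v X := by
      rw [map_mul]; exact mul_lt_of_lt_one_left hX0 hg
    constructor <;> intro h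
    · have := v.map_sub_lt (g := v X) h hgX
      rwa [show l * X + m - a * X - (l - a) * X = m by ring] at this
    · rw [show l * X + m - a * X = (l - a) * X + m by ring]
      exact v.map_add_lt hgX h
  have big : ∀ X : L, v c < v X ^ 2 → v m < v X → compVal v a c X (l * X + m) = v X ^ 2 := by
    intro X h1 h2
    rw [compVal, if_pos h1, if_pos ((branch X h1).mpr h2)]
  have opp : ∀ X : L, v c < v X ^ 2 → ¬ v m < v X →
      compVal v a c X (l * X + m) = (v X ^ 2)⁻¹ := by
    intro X h1 h2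
    rw [compVal, if_pos h1, if_neg (fun h => h2 ((branch X h1).mp h))]
  have hc0 : 0 < v c := zero_lt_iff.mpr hp.vc_ne_zero
  have hprod : v X₁ * v X₂ * v X₃ = v (m ^ 2 - c) := by rw [← map_mul, ← map_mul, T.e3]
  rcases lt_or_eq_of_le h₂₃ with hlt | heq
  · -- `X₃` is strictly the smallest
    have hX₂ : 0 < v X₂ := lt_of_le_of_lt zero_le hlt
    have hX₁' : 0 < v X₁ := lt_of_lt_of_le hX₂ h₁₂
    have h12 : v X₁ * v X₂ = v m := by
      rw [← he2, v.map_add_eq_of_lt_left, v.map_add_eq_of_lt_left, map_mul]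
      · rw [map_mul, map_mul]; exact mul_lt_mul_of_pos_left hlt hX₁'
      · rw [v.map_add_eq_of_lt_left (by
            rw [map_mul, map_mul]; exact mul_lt_mul_of_pos_left hlt hX₁'), map_mul, map_mul]
        calc v X₂ * v X₃ < v X₂ * v X₂ := mul_lt_mul_of_pos_left hlt hX₂
          _ ≤ v X₁ * v X₂ := mul_le_mul_left h₁₂ _
    have hm : 0 < v m := h12 ▸ mul_pos hX₁' hX₂
    have hm₁ : v m < v X₁ := h12 ▸ mul_lt_of_lt_one_right hX₁' (h₁₂.trans_lt hX₁)
    have hm₂ : v m < v X₂ := h12 ▸ mul_lt_of_lt_one_left hX₂ hX₁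
    rcases lt_or_ge (v c) (v m ^ 2) with hs | hs
    · have he3 : v (m ^ 2 - c) = v m ^ 2 := by
        rw [v.map_sub_eq_of_lt_left (by rwa [map_pow]), map_pow]
      rw [h12, he3, sq] at hprod
      have h3 : v X₃ = v m := mul_left_cancel₀ hm.ne' hprod
      rw [big X₁ (hs.trans_le (pow_le_pow_left₀ zero_le hm₁.le 2)) hm₁,
        big X₂ (hs.trans_le (pow_le_pow_left₀ zero_le hm₂.le 2)) hm₂,
        opp X₃ (by rwa [h3]) (by rw [h3]; exact lt_irrefl _), h3, ← mul_pow, h12,
        mul_inv_cancel₀ (pow_ne_zero _ hm.ne')]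
      exact InH.one
    · rcases lt_or_eq_of_le hs with hs' | hs'
      · have he3 : v (m ^ 2 - c) = v c := v.map_sub_eq_of_lt_right (by rwa [map_pow])
        rw [h12, he3] at hprod
        have hm₃ : v m < v X₃ := by
          refine lt_of_mul_lt_mul_left' (a := v m) ?_
          rwa [hprod, ← sq]
        have hb3 : v c < v X₃ ^ 2 := by
          rw [← hprod, sq]
          exact mul_lt_mul_of_pos_right hm₃ (hm.trans hm₃)
        have hb2 : v c < v X₂ ^ 2 := hb3.trans_le (pow_le_pow_left₀ zero_le h₂₃ 2)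
        have hb1 : v c < v X₁ ^ 2 := hb2.trans_le (pow_le_pow_left₀ zero_le h₁₂ 2)
        rw [big X₁ hb1 hm₁, big X₂ hb2 hm₂, big X₃ hb3 hm₃, ← mul_pow, ← mul_pow, h12, hprod]
        exact InH.sq
      · have hb3 : ¬ v c < v X₃ ^ 2 := by
          rw [not_lt, ← hs']
          refine pow_le_pow_left₀ zero_le ?_ 2
          refine le_of_mul_le_mul_left (a := v m) ?_ hm
          rw [← h12, hprod, h12, ← sq]
          exact (v.map_sub _ _).trans (max_le (by rw [map_pow]) hs'.ge)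
        rw [big X₁ (hs' ▸ pow_lt_pow_left₀ hm₁ zero_le two_ne_zero) hm₁,
          big X₂ (hs' ▸ pow_lt_pow_left₀ hm₂ zero_le two_ne_zero) hm₂,
          compVal, if_neg hb3, ← mul_pow, h12, hs', ← sq]
        exact InH.sq
  · -- the two smallest have equal valuation
    have hm : v m ≤ v X₁ * v X₂ := by
      rw [← he2]
      refine v.map_add_le (v.map_add_le (map_mul v _ _).le ?_) ?_
      · rw [map_mul, heq]
      · rw [map_mul, heq]; exact mul_le_mul_left h₁₂ _
    rw [heq] at hprod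
    by_cases h0 : v X₂ = 0
    · rw [h0, mul_zero] at hm
      have hm0 : m = 0 := v.zero_iff.mp (le_antisymm hm zero_le)
      simp only [h0, mul_zero, hm0] at hprod
      exact absurd (v.zero_iff.mp hprod.symm) (by simp [hp.hc0])
    have hX₂ : 0 < v X₂ := zero_lt_iff.mpr h0
    have hX₁' : 0 < v X₁ := lt_of_lt_of_le hX₂ h₁₂
    -- the square of the product of the two largest is smaller than the product of all three
    have hlt : (v X₁ * v X₂) ^ 2 < v X₁ * v X₂ * v X₂ := by
      rw [show (v X₁ * v X₂) ^ 2 = v X₁ * (v X₁ * v X₂ * v X₂) by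
        rw [sq]; simp [mul_comm, mul_left_comm]]
      exact mul_lt_of_lt_one_left (mul_pos (mul_pos hX₁' hX₂) hX₂) hX₁
    have hsm : v m ^ 2 < v X₁ * v X₂ * v X₂ :=
      (pow_le_pow_left₀ zero_le hm 2).trans_lt hlt
    have hs : v m ^ 2 < v c := by
      by_contra hcon
      rw [not_lt] at hcon
      refine absurd ?_ (not_le.mpr hsm)
      rw [hprod]
      exact (v.map_sub _ _).trans (max_le (by rw [map_pow]) hcon)
    rw [v.map_sub_eq_of_lt_right (by rwa [map_pow])] at hprod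
    have hb2 : v c < v X₂ ^ 2 := by
      rw [← hprod, mul_assoc, ← sq]
      exact mul_lt_of_lt_one_left (pow_pos hX₂ 2) hX₁
    have hb1 : v c < v X₁ ^ 2 := hb2.trans_le (pow_le_pow_left₀ zero_le h₁₂ 2)
    have hm₂ : v m < v X₂ := hm.trans_lt (mul_lt_of_lt_one_left hX₂ hX₁)
    rw [big X₁ hb1 (hm₂.trans_le h₁₂), big X₂ hb2 hm₂, big X₃ (heq ▸ hb2) (heq ▸ hm₂), heq,
      ← mul_pow, ← mul_pow, hprod]
    exact InH.sq

lemma prod_of_lt (hp : NodeParams v a b c) (T : Triple a b c l m X₁ X₂ X₃)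
    (hg : v (l - a) < 1) (h₁ : v X₁ < 1) (h₂ : v X₂ < 1) (h₃ : v X₃ < 1) :
    InH v c (compVal v a c X₁ (l * X₁ + m) * compVal v a c X₂ (l * X₂ + m)
      * compVal v a c X₃ (l * X₃ + m)) := by
  rcases le_total (v X₂) (v X₁) with p | p <;> rcases le_total (v X₃) (v X₂) with q | q
  · exact prod_sorted hp T hg h₁ p q
  · rcases le_total (v X₃) (v X₁) with r | r
    · have := prod_sorted hp T.swap₂₃ hg h₁ r q
      convert this using 1; ac_rfl
    · have := prod_sorted hp T.swap₂₃.swap₁₂ hg h₃ r p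
      convert this using 1; ac_rfl
  · rcases le_total (v X₃) (v X₁) with r | r
    · have := prod_sorted hp T.swap₁₂ hg h₂ p r
      convert this using 1; ac_rfl
    · have := prod_sorted hp T.swap₁₂.swap₂₃ hg h₂ q r
      convert this using 1; ac_rfl
  · have := prod_sorted hp T.swap₁₂.swap₂₃.swap₁₂ hg h₃ q p
    convert this using 1; ac_rfl

lemma slope_near (hp : NodeParams v a b c) (T : Triple a b c l m X₁ X₂ X₃)
    (h₁ : v X₁ < 1) (h₂ : v X₂ < 1) (h₃ : v X₃ < 1) :
    (v (l - a) < 1 ∨ v (l - b) < 1) ∧ v l ≤ 1 := by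
  have h : v (l - a) < 1 ∨ v (l - b) < 1 := by
    have := v.map_add_lt (v.map_add_lt h₁ h₂) h₃
    rw [T.e1, map_mul] at this
    by_contra hcon
    rw [not_or, not_lt, not_lt] at hcon
    exact absurd (one_le_mul hcon.1 hcon.2) (not_le.mpr this)
  refine ⟨h, ?_⟩
  rcases h with h | h
  · simpa using v.map_add_le h.le hp.ha
  · simpa using v.map_add_le h.le hp.hb

/-- The ordinate of a third point near the node, on a line through two points near the node. -/
lemma ordinate_lt (hp : NodeParams v a b c) (T : Triple a b c l m X₁ X₂ X₃)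
    (h₁ : v X₁ < 1) (h₂ : v X₂ < 1) (h₃ : v X₃ < 1) (hY : v (l * X₁ + m) < 1) :
    v (l * X₃ + m) < 1 := by
  have hl := (slope_near hp T h₁ h₂ h₃).2
  have hlX : ∀ X : L, v X < 1 → v (l * X) < 1 := fun X hX => by
    rw [map_mul]; exact (mul_le_of_le_one_left zero_le hl).trans_lt hX
  have hm : v m < 1 := by simpa using v.map_sub_lt hY (hlX X₁ h₁)
  exact v.map_add_lt (hlX X₃ h₃) hm

/-- Three collinear points near the node. -/
lemma prod_three (hp : NodeParams v a b c) (T : Triple a b c l m X₁ X₂ X₃)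
    (n₁ : NearNode v a b c X₁ (l * X₁ + m)) (n₂ : NearNode v a b c X₂ (l * X₂ + m))
    (n₃ : NearNode v a b c X₃ (l * X₃ + m)) :
    InH v c (compVal v a c X₁ (l * X₁ + m) * compVal v a c X₂ (l * X₂ + m)
      * compVal v a c X₃ (l * X₃ + m)) := by
  rcases (slope_near hp T n₁.hX n₂.hX n₃.hX).1 with h | h
  · exact prod_of_lt hp T h n₁.hX n₂.hX n₃.hX
  · have hb := prod_of_lt hp.symm T.symm h n₁.hX n₂.hX n₃.hX
    have hab := InH.mul hp.hc0 (InH.mul hp.hc0 (n₁.compVal_mul_swap hp) (n₂.compVal_mul_swap hp))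
      (n₃.compVal_mul_swap hp)
    convert InH.mul hp.hc0 hab hb.inv using 1
    have e : ∀ x y z x' y' z' : Γ, x * x' * (y * y') * (z * z') = x * y * z * (x' * y' * z') :=
      fun x y z x' y' z' => by ac_rfl
    rw [e, mul_inv_cancel_right₀]
    exact mul_ne_zero (mul_ne_zero (NearNode.compVal_ne_zero hp.symm)
      (NearNode.compVal_ne_zero hp.symm)) (NearNode.compVal_ne_zero hp.symm)

lemma slopes_far (hp : NodeParams v a b c) (T : Triple a b c l m X₁ X₂ X₃)
    (h₁ : v X₁ < 1) (h₂ : v X₂ < 1) (h₃ : 1 ≤ v X₃) :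
    1 ≤ v (l - a) ∧ v (l - b) = v (l - a) ∧ v X₃ = v (l - a) ^ 2 := by
  have hprod : v (l - a) * v (l - b) = v X₃ := by
    rw [← map_mul, ← T.e1]
    exact v.map_add_eq_of_lt_right ((v.map_add_lt h₁ h₂).trans_le h₃)
  have hlow : 1 ≤ v (l - a) := by
    by_contra hcon
    rw [not_le] at hcon
    have : v (l - b) = 1 := by
      rw [show l - b = (l - a) + (a - b) by ring,
        v.map_add_eq_of_lt_right (by rw [hp.hab]; exact hcon), hp.hab]
    rw [this, mul_one] at hprod
    exact absurd (hprod ▸ h₃) (not_le.mpr hcon)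
  have heq : v (l - b) = v (l - a) := by
    rcases lt_or_eq_of_le hlow with h | h
    · rw [show l - b = (l - a) + (a - b) by ring,
        v.map_add_eq_of_lt_left (by rw [hp.hab]; exact h)]
    · refine le_antisymm ?_ ?_
      · rw [show l - b = (l - a) + (a - b) by ring]
        exact v.map_add_le le_rfl (by rw [hp.hab, h])
      · rw [← h]
        by_contra hcon
        rw [not_le] at hcon
        rw [← h, one_mul] at hprod
        exact absurd (hprod ▸ h₃) (not_le.mpr hcon)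
  exact ⟨hlow, heq, by rw [← hprod, heq, sq]⟩

lemma branch_opposite (hp : NodeParams v a b c) (T : Triple a b c l m X₁ X₂ X₃)
    (hg1 : 1 ≤ v (l - a)) (hX₃ : v X₃ = v (l - a) ^ 2)
    (hm : v m = v (l - a) * v X₁) (h₂₁ : v X₂ = v X₁) (hbig : v c < v X₁ ^ 2) (h₁ : v X₁ < 1)
    (hb₁ : v (l * X₁ + m - b * X₁) < v X₁) (hb₂ : v (l * X₂ + m - b * X₂) < v X₂) : False := by
  have hw : 0 < v X₁ := zero_lt_iff.mpr ((v.ne_zero_iff).mpr (NearNode.X_ne_zero hbig))
  have hg : 0 < v (l - a) := zero_lt_one.trans_le hg1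
  have hval : ∀ X : L, v X = v X₁ → v (l * X + m - b * X) < v X →
      v ((l - a) * X + m) = v X := by
    intro X e hX
    rw [show (l - a) * X + m = (l * X + m - b * X) - (a - b) * X by ring,
      v.map_sub_eq_of_lt_right (by rw [map_mul, hp.hab, one_mul]; exact hX),
      map_mul, hp.hab, one_mul]
  have key : ((l - a) * X₁ + m) * ((l - a) * X₂ + m) * X₃
      = -((l - a) ^ 2 * c) - (l - a) * m * (X₁ * X₂) - m ^ 2 * (X₁ + X₂) := by
    linear_combination (l - a) ^ 2 * T.e3 + (l - a) * m * T.e2 + m ^ 2 * T.e1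
  set g := v (l - a) with hgdef
  have hcube : v X₁ ^ 3 < v X₁ ^ 2 := by
    rw [pow_succ]; exact mul_lt_of_lt_one_right (pow_pos hw 2) h₁
  have hlt : v (-((l - a) ^ 2 * c) - (l - a) * m * (X₁ * X₂) - m ^ 2 * (X₁ + X₂))
      < g ^ 2 * v X₁ ^ 2 := by
    refine v.map_sub_lt (v.map_sub_lt ?_ ?_) ?_
    · rw [v.map_neg, map_mul, map_pow, ← hgdef]
      exact mul_lt_mul_of_pos_left hbig (pow_pos hg 2)
    · rw [map_mul, map_mul, map_mul, ← hgdef, hm, h₂₁,
        show g * (g * v X₁) * (v X₁ * v X₁) = g ^ 2 * v X₁ ^ 3 by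
          rw [sq, pow_succ, sq]; ac_rfl]
      exact mul_lt_mul_of_pos_left hcube (pow_pos hg 2)
    · rw [map_mul, map_pow, hm, mul_pow, mul_assoc]
      refine mul_lt_mul_of_pos_left ?_ (pow_pos hg 2)
      calc v X₁ ^ 2 * v (X₁ + X₂) ≤ v X₁ ^ 2 * v X₁ :=
            mul_le_mul_right (v.map_add_le le_rfl h₂₁.le) _
        _ < v X₁ ^ 2 := by rw [← pow_succ]; exact hcube
  rw [← key, map_mul, map_mul, hval X₁ rfl hb₁, hval X₂ h₂₁ hb₂, h₂₁, hX₃, ← sq,
    mul_comm] at hlt
  exact lt_irrefl _ hlt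

lemma prod_two_big (hp : NodeParams v a b c) (T : Triple a b c l m X₁ X₂ X₃)
    (n₁ : NearNode v a b c X₁ (l * X₁ + m)) (n₂ : NearNode v a b c X₂ (l * X₂ + m))
    (h₃ : 1 ≤ v X₃) (hbig : v c < v X₁ ^ 2) :
    InH v c (compVal v a c X₁ (l * X₁ + m) * compVal v a c X₂ (l * X₂ + m)) := by
  obtain ⟨hg1, hgb, hX₃⟩ := slopes_far hp T n₁.hX n₂.hX h₃
  have hw : 0 < v X₁ := zero_lt_iff.mpr ((v.ne_zero_iff).mpr (NearNode.X_ne_zero hbig))
  have hg : 0 < v (l - a) := zero_lt_one.trans_le hg1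
  have hm_of : ∀ d : L, v (l - d) = v (l - a) → v (l * X₁ + m - d * X₁) < v X₁ →
      v m = v (l - a) * v X₁ := by
    intro d hd h
    rw [show m = (l * X₁ + m - d * X₁) - (l - d) * X₁ by ring, v.map_sub_eq_of_lt_right,
      map_mul, hd]
    rw [map_mul, hd]
    exact h.trans_le (le_mul_of_one_le_left zero_le hg1)
  have hm : v m = v (l - a) * v X₁ := by
    rcases n₁.either hbig with h | h
    · exact hm_of a rfl h
    · exact hm_of b hgb h
  have hcm : v c < v m ^ 2 := by
    rw [hm]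
    exact hbig.trans_le (pow_le_pow_left₀ zero_le (le_mul_of_one_le_left zero_le hg1) 2)
  have h₂₁ : v X₂ = v X₁ := by
    have := congr_arg v T.e3
    rw [map_mul, map_mul, v.map_sub_eq_of_lt_left (by rwa [map_pow]), map_pow, hm, hX₃,
      mul_pow, mul_comm (v (l - a) ^ 2) (v X₁ ^ 2)] at this
    have := mul_right_cancel₀ (pow_ne_zero 2 hg.ne') this
    rw [sq] at this
    exact mul_left_cancel₀ hw.ne' this
  have hbig₂ : v c < v X₂ ^ 2 := h₂₁ ▸ hbig
  rw [compVal, if_pos hbig, compVal, if_pos hbig₂]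
  split_ifs with h h' h'
  · exfalso
    exact branch_opposite hp.symm T.symm (hgb.symm ▸ hg1) (by rw [hX₃, hgb])
      (by rw [hm, hgb]) h₂₁ hbig n₁.hX h h'
  · rw [h₂₁, mul_inv_cancel₀ (pow_ne_zero 2 hw.ne')]; exact InH.one
  · rw [h₂₁, inv_mul_cancel₀ (pow_ne_zero 2 hw.ne')]; exact InH.one
  · exfalso
    exact branch_opposite hp T hg1 hX₃ hm h₂₁ hbig n₁.hX ((n₁.either hbig).resolve_left h)
      ((n₂.either hbig₂).resolve_left h')

/-- Two points near the node whose sum is away from it. -/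
lemma prod_two (hp : NodeParams v a b c) (T : Triple a b c l m X₁ X₂ X₃)
    (n₁ : NearNode v a b c X₁ (l * X₁ + m)) (n₂ : NearNode v a b c X₂ (l * X₂ + m))
    (h₃ : 1 ≤ v X₃) :
    InH v c (compVal v a c X₁ (l * X₁ + m) * compVal v a c X₂ (l * X₂ + m)) := by
  by_cases h₁ : v c < v X₁ ^ 2
  · exact prod_two_big hp T n₁ n₂ h₃ h₁
  by_cases h₂ : v c < v X₂ ^ 2
  · rw [mul_comm]; exact prod_two_big hp T.swap₁₂ n₂ n₁ h₃ h₂
  rw [compVal, if_neg h₁, compVal, if_neg h₂, ← sq]
  exact InH.sq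

end Collinear

end Fermat.Agent.EC.Multiplicative
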